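import Mathlib
import Fermat.Agent.LT.T7.H1U.UpFactQSpec

/-!
# Row LT, tower T7, leaf Q2.7.13.1.a `H1U.UpDatExistsQC` (registry row 2785, owner helper864):
# THE CUT -- Spec

OFF-MAIN.  Definitions and frozen Props only (the proved top is `UpDatQTop.lean`).  No hole,
nothing assumed.  ADDITIVE (new names only, suffix `864`).  Vocabulary:
`T7/H1U/UpFactQSpec.lean` (helper1@7e90b91d7, sha256 88d08be1) and its imports, byte-identical.

    upDatExistsQC_of864 : UpInertQC864 F → UpSplitQC864 F → UpArchQC864 → H1U.UpDatExistsQC F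

The data upstairs are chosen PLACE BY PLACE; the three leaves are the three kinds of places.

* `UpInertQC864 F` [L] (ONE place `w` over `v`): there are `β'`, `J` with
  `H1U.IsInertAtQ D n φ₀ δ v w β' J`.
  Proof.  `(e, i, s_w)` with `rat_i`, `rat_s`, `IsLocalExt`: `T6.InstExtC` (field of `T6.T6Out`)
  for the generator `D.s.σ` of the Galois group (helper584 `algAut584`, `algAut_gen584`;
  `PlaceOver` in the form of ideals; a place `w'` with `v ⊆ w' ∩ ℤ` lies over `v`: `v` is
  maximal).  `μ'`, `μt'`: `H305.LocMeasC305` (closed: helper729) with `T6.InstLocalC`; `β'`: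
  `H305.LocCutC305` (closed: helper543).  Regularity: `twNorm s_w l δ_w` is the image of
  `N δ = γ` under `ℚ → F → F_w` (`rat_s`, helper584 `twNorm_eq_normUpTo584`), `γ` is regular and
  the discriminant commutes with ring homomorphisms.  `J` := the integral.
* `UpSplitQC864 F` [L] (TWO places over `v`; arithmetic only): for a place `w0` over `v` and a
  second place `w1 ≠ w0` over `v` there is an enumeration `w j` of places over `v` with
  `w 0 = w0`, `w j = σ(w (j+1))` (`T5.PlaceRel`), `w j ≠ w 0` for `0 < j < l`, and valuation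
  preserving identifications `i j : ℚ_v ≃ F_{w j}` over `ℚ → F`.
  Proof.  `w (j+1) := σ⁻¹(w j)` (the comap of a height one prime under `σ`), all over `v`
  (`σ` fixes `ℚ`).  The Galois group `{1, σ}` is transitive on the primes over `v`
  (`Ideal.exists_map_eq_of_isGalois`), so `σ(w0) = w0` would imply that `w0` is the only place
  over `v`: `w 1 ≠ w 0`.  `g e f = 2` (`Ideal.ncard_primesOver_mul_ramificationIdxIn_mul_
  inertiaDegIn`) and `g ≥ 2`: `e = f = 1` at EVERY place over `v`, i.e. the hypotheses of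
  `T6.InstSplitC` (as in helper768 `splitOrUniqueC768`): `i j` with `rat_i`, `val_i`.
* `UpArchQC864` [L] (no field; the real place): for `γ ∈ GL₂(ℚ)` elliptic and a Haar measure
  `μtr` of the centraliser `T` of `γ_∞` in `GL₂(ℝ)` there is a continuous `β' ≥ 0` on `GL₂(ℂ)`
  with `∫_T β'(t_ℂ x) dμtr(t) = 1` for all `x ∈ GL₂(ℂ)`.
  Proof.  `GL₂(ℝ) → GL₂(ℂ)` is a closed embedding and a homomorphism; the image `T'` of `T` is
  a closed commutative subgroup of `GL₂(ℂ)` (`γ_∞` is regular: the centraliser is commutative),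
  the image of `μtr` is a Haar measure of `T'` (right invariant: commutative);
  `exists_cutoff584` (helper584, `T7/H584/Cutoff.lean`, Mathlib only) for `GL₂(ℂ)` (locally
  compact, `σ`-compact), `T'`.

FALSITY CHECKS (helper864).  `UpInertQC864`: all objects exist by the closed leaves named; the
value `J` is free.  `UpSplitQC864`: `F/ℚ` quadratic, `v` with two places over it is split
(`e = f = 1`), `ℚ_v = F_w` for both; `w (2k) = w0`, `w (2k+1) = σ⁻¹(w0) = σ(w0) = w1`.  No
hypothesis on the levels (the levels enter in the top, from `H1U.LevelsAtSplitQ`).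
`UpArchQC864`: `T` is `ℝ^× × ℝ^×` or `ℂ^×`, closed in `GL₂(ℂ)`, not cocompact: the cut-off
function is not compactly supported, which is not asked.
-/

set_option autoImplicit false

open AutomorphicForm IsDedekindDomain NumberField MeasureTheory
open scoped ComplexConjugate

noncomputable section

namespace Fermat.Agent.LT.T7.H864

open Fermat.Agent.LT.H556 Fermat.Agent.LT.H556.A0 Fermat.Agent.LT.T7 Fermat.Agent.LT.T7.H305
open Fermat.Agent.LT.T7.MQ298 Fermat.Agent.LT.T7.H340 Fermat.Agent.LT.T7.FUQ514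
open Fermat.Agent.LT.T7.H1U

attribute [local instance] Fermat.Agent.LT.T5.instMeasurableSpaceG

section Leaves

variable (F : Type) [Field F] [NumberField F]

/-- **LEAF UQ.1 = UP-INERT-Q (one place over `v`).**  See the header. -/
def UpInertQC864 : Prop :=
  T6.T6Out →
  ∀ D : CompData ℚ F, IsCompData D → IsCycExt ℚ F D.l →
    ∀ (n : HeightOneSpectrum (𝓞 F) → ℕ)
      (φ₀ : ∀ w : HeightOneSpectrum (𝓞 F), GL (Fin 2) (w.adicCompletion F) → ℂ)
      (δ : GL (Fin 2) F) (γ : GL (Fin 2) ℚ), T6.IsEll γ →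
      D.s.normUpTo D.l δ = Matrix.GeneralLinearGroup.map (algebraMap ℚ F) γ →
    ∀ (v : HeightOneSpectrum (𝓞 ℚ)) (w : HeightOneSpectrum (𝓞 F)), PlaceOver ℚ F v w →
      (∀ w' : HeightOneSpectrum (𝓞 F), PlaceOver ℚ F v w' → w' = w) →
      ∃ (β' : GL (Fin 2) (w.adicCompletion F) → ℝ) (J : ℂ), IsInertAtQ D n φ₀ δ v w β' J

/-- **LEAF UQ.2 = UP-SPLIT-Q (two places over `v`; arithmetic).**  See the header. -/
def UpSplitQC864 : Prop :=
  T6.T6Out →
  ∀ D : CompData ℚ F, IsCompData D → IsCycExt ℚ F D.l → D.l = 2 →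
    ∀ (v : HeightOneSpectrum (𝓞 ℚ)) (w0 w1 : HeightOneSpectrum (𝓞 F)),
      PlaceOver ℚ F v w0 → PlaceOver ℚ F v w1 → w1 ≠ w0 →
      ∃ (w : ℕ → HeightOneSpectrum (𝓞 F))
        (i : ∀ j : ℕ, v.adicCompletion ℚ ≃+* (w j).adicCompletion F),
        w 0 = w0 ∧
        (∀ j : ℕ, PlaceOver ℚ F v (w j)) ∧
        (∀ j : ℕ, T5.PlaceRel D.s (w (j + 1)) (w j)) ∧
        (∀ j : ℕ, 0 < j → j < D.l → w j ≠ w 0) ∧
        (∀ (j : ℕ) (x : ℚ), i j (algebraMap ℚ (v.adicCompletion ℚ) x)
          = algebraMap F ((w j).adicCompletion F) (algebraMap ℚ F x)) ∧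
        ∀ (j : ℕ) (x : v.adicCompletion ℚ), Valued.v (i j x) = Valued.v x

end Leaves

/-- **LEAF UQ.3 = UP-ARCH-Q (the real place; no field).**  See the header. -/
def UpArchQC864 : Prop :=
  ∀ γ : GL (Fin 2) ℚ, T6.IsEll γ →
    ∀ μtr : @Measure (cent305 (reGLQ298 (T5.ratG γ))) (borel _),
      @Measure.IsHaarMeasure _ _ _ (borel _) μtr →
      ∃ β' : GL (Fin 2) ℂ → ℝ, Continuous β' ∧ (∀ x, 0 ≤ β' x) ∧
        ∀ x : GL (Fin 2) ℂ,
          @integral _ _ _ _ (borel _) μtr
            (fun t : cent305 (reGLQ298 (T5.ratG γ)) =>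
              β' (Matrix.GeneralLinearGroup.map (algebraMap ℝ ℂ) (t : GL (Fin 2) ℝ) * x)) = 1

/-! ## Appendix: the equation lemmas of the definitions are realised HERE -/

theorem eqns_realisedUQ864 : True := by
  have _a1 := @UpInertQC864.eq_1
  have _a2 := @UpInertQC864.eq_def
  have _a3 := @UpInertQC864.eq_unfold
  have _b1 := @UpSplitQC864.eq_1
  have _b2 := @UpSplitQC864.eq_def
  have _b3 := @UpSplitQC864.eq_unfold
  have _c1 := @UpArchQC864.eq_1
  have _c2 := @UpArchQC864.eq_def
  have _c3 := @UpArchQC864.eq_unfold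
  trivial

end Fermat.Agent.LT.T7.H864

end
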