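import Mathlib
import Fermat.Agent.LT.T7.H864.UpDatQSpec

/-!
# Row LT, tower T7, leaf Q2.7.13.1.a `H1U.UpDatExistsQC` (registry row 2785, owner helper864):
# THE CUT -- the PROVED top

OFF-MAIN.  `upDatExistsQC_of864 : UpInertQC864 F → UpSplitQC864 F → UpArchQC864 →
H1U.UpDatExistsQC F` (VERBATIM vs `T7/H1U/UpFactQSpec.lean` 88d08be1).  See `UpDatQSpec.lean`.
-/

set_option autoImplicit false
set_option linter.unusedVariables false
set_option linter.unusedSectionVars false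

open AutomorphicForm IsDedekindDomain NumberField MeasureTheory
open scoped ComplexConjugate

noncomputable section

namespace Fermat.Agent.LT.T7.H864

open Fermat.Agent.LT.H556 Fermat.Agent.LT.H556.A0 Fermat.Agent.LT.T7 Fermat.Agent.LT.T7.H305
open Fermat.Agent.LT.T7.MQ298 Fermat.Agent.LT.T7.H340 Fermat.Agent.LT.T7.FUQ514
open Fermat.Agent.LT.T7.H1U

attribute [local instance] Fermat.Agent.LT.T5.instMeasurableSpaceG

variable {F : Type} [Field F] [NumberField F]

/-- The split datum at `v` for the first place `w0` (a variable). -/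
theorem splitAt_of864 (h2 : UpSplitQC864 F) (hT6 : T6.T6Out) (D : CompData ℚ F)
    (hD : IsCompData D) (hcyc : IsCycExt ℚ F D.l) (hl : D.l = 2)
    (n : HeightOneSpectrum (𝓞 F) → ℕ) (m : HeightOneSpectrum (𝓞 ℚ) → ℕ)
    (φ₀ : ∀ w : HeightOneSpectrum (𝓞 F), GL (Fin 2) (w.adicCompletion F) → ℂ)
    (δ : GL (Fin 2) F) {γ : GL (Fin 2) ℚ} (L : LocDataQ298 γ)
    (v : HeightOneSpectrum (𝓞 ℚ)) (w0 w1 : HeightOneSpectrum (𝓞 F))
    (h0 : PlaceOver ℚ F v w0) (h1 : PlaceOver ℚ F v w1) (hne : w1 ≠ w0)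
    (hlev : ∀ (w : ℕ → HeightOneSpectrum (𝓞 F))
      (i : ∀ j : ℕ, v.adicCompletion ℚ ≃+* (w j).adicCompletion F),
      w 0 = w0 →
      (∀ j : ℕ, PlaceOver ℚ F v (w j)) → (∀ j : ℕ, T5.PlaceRel D.s (w (j + 1)) (w j)) →
      (∀ j : ℕ, 0 < j → j < D.l → w j ≠ w 0) →
      (∀ (j : ℕ) (x : ℚ), i j (algebraMap ℚ (v.adicCompletion ℚ) x)
        = algebraMap F ((w j).adicCompletion F) (algebraMap ℚ F x)) →
      (∀ (j : ℕ) (x : v.adicCompletion ℚ), Valued.v (i j x) = Valued.v x) →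
      ∀ j : ℕ, n (w j) = m v) :
    ∃ (β' : GL (Fin 2) (w0.adicCompletion F) → ℝ) (J : ℂ),
      IsSplitAtQ D n m φ₀ δ L v w0 β' J := by
  obtain ⟨w, i, hw0, hovr, hrel, hnew, hrat, hval⟩ := h2 hT6 D hD hcyc hl v w0 w1 h0 h1 hne
  subst hw0
  have hlpos : 0 < D.l := by rw [hl]; norm_num
  refine ⟨fun g => L.βv v (Matrix.GeneralLinearGroup.map
      (((i 0).symm : (w 0).adicCompletion F ≃+* _) :
        (w 0).adicCompletion F →+* v.adicCompletion ℚ) g), _, hlpos, w, i, rfl,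
    hlev w i rfl hovr hrel hnew hrat hval, fun y => rfl, hovr, hrel, hnew, hrat, hval, rfl⟩

/-- **THE TOP**: the leaf `H1U.UpDatExistsQC F` from the three kinds of places. -/
theorem upDatExistsQC_of864 (F : Type) [Field F] [NumberField F] (h1 : UpInertQC864 F)
    (h2 : UpSplitQC864 F) (h3 : UpArchQC864) : UpDatExistsQC F := by
  intro hT6 hIQ D hD hcyc hl μc hμc n m S φ₀ Φ w0c hover hlev δ γ hγ hN L hL
  classical
  -- the finite places
  have hfin : ∀ v : HeightOneSpectrum (𝓞 ℚ), v ∈ S →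
      ∃ (β' : GL (Fin 2) ((w0c v).adicCompletion F) → ℝ) (J : ℂ),
        IsInertAtQ D n φ₀ δ v (w0c v) β' J ∨ IsSplitAtQ D n m φ₀ δ L v (w0c v) β' J := by
    intro v hv
    by_cases hu : ∀ w' : HeightOneSpectrum (𝓞 F), PlaceOver ℚ F v w' → w' = w0c v
    · obtain ⟨β', J, h⟩ := h1 hT6 D hD hcyc n φ₀ δ γ hγ hN v (w0c v) (hover v hv) hu
      exact ⟨β', J, Or.inl h⟩
    · push Not at hu
      obtain ⟨w1, hw1, hne⟩ := hu
      obtain ⟨β', J, h⟩ := splitAt_of864 h2 hT6 D hD hcyc hl n m φ₀ δ L v (w0c v) w1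
        (hover v hv) hw1 hne (fun w i hw0 => hlev v hv w i hw0)
      exact ⟨β', J, Or.inr h⟩
  -- the infinite place
  obtain ⟨βc, hβc, hβ0, hβ1⟩ := h3 γ hγ L.μtr hL.torr
  obtain ⟨winf⟩ : Nonempty (InfinitePlace F) := inferInstance
  refine ⟨{ w0 := w0c
            bet := fun v => if h : v ∈ S then Classical.choose (hfin v h) else fun _ => 0
            winf := winf
            βc := βc },
    fun v => if h : v ∈ S then Classical.choose (Classical.choose_spec (hfin v h)) else 0,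
    fun j => @integral _ _ _ _ (borel _) μc
        (fun x : GL (Fin 2) ℂ =>
          Φ winf (x⁻¹ * infGL305 winf (T5.ratG δ * D.R'.r ^ j)
              * T6.glAut (starRingAut : ℂ ≃+* ℂ) x) * ((βc x : ℝ) : ℂ)),
    rfl, ?_, hβc, hβ0, hβ1, fun j => rfl⟩
  intro v hv
  simp only [dif_pos hv]
  exact Classical.choose_spec (Classical.choose_spec (hfin v hv))

end Fermat.Agent.LT.T7.H864

end
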