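import Mathlib
import Fermat.Agent.LT.T7.H864.UpDatQSpec
import Fermat.Agent.LT.T7.H557.DescTriv
import Fermat.Agent.LT.T7.H584.NormLocTop

/-!
# Row LT, tower T7, leaf Q2.7.13.1.a.2 `UpSplitQC864` (registry row 2842, helper864): PROVED

OFF-MAIN.  `upSplitQC864 F : UpSplitQC864 F`, UNCONDITIONAL.  `F/ℚ` Galois of prime degree
`D.l = 2` with generator `σ = D.s.σ`, `v` a finite place of `ℚ` with two places `w0 ≠ w1` over
it.  `w (j+1) := σ⁻¹(w j)` (comap), all over `v`; `σ⁻¹(w0) ≠ w0` (the Galois group is generated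
by `σ` and transitive on the primes over `v`); `g e f = 2`, `g ≥ 2`: `e = f = 1` at every
place over `v`, and `T6.InstSplitC` (field of `T6.T6Out`) gives the identifications.
Assets: helper557 `DescTriv.lean`, helper584 `NormLocTop.lean` (`algAut584`), proof pattern of
helper768 `splitOrUniqueC768`.
-/

set_option autoImplicit false
set_option linter.unusedVariables false
set_option linter.unusedSectionVars false
set_option linter.style.haveILetI false

open AutomorphicForm IsDedekindDomain NumberField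
open scoped Pointwise

noncomputable section

namespace Fermat.Agent.LT.T7.H864

open Fermat.Agent.LT.H556 Fermat.Agent.LT.H556.A0 Fermat.Agent.LT.T7 Fermat.Agent.LT.T7.H305

section General

variable {K K' : Type} [Field K] [NumberField K] [Field K'] [NumberField K'] [Algebra K K']

/-- If the (old-style) ramification index is `1`, then `p S ⊄ P²`. -/
theorem not_map_le_sq_of_ramIdx864 {R S : Type} [CommRing R] [CommRing S] [Algebra R S]
    (p : Ideal R) (P : Ideal S) (he : p.ramificationIdx' P = 1) :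
    ¬ Ideal.map (algebraMap R S) p ≤ P ^ 2 := by
  intro hle
  by_cases hb : BddAbove {n : ℕ | Ideal.map (algebraMap R S) p ≤ P ^ n}
  · have h2 : (2 : ℕ) ≤ sSup {n : ℕ | Ideal.map (algebraMap R S) p ≤ P ^ n} :=
      le_csSup hb hle
    have he' : sSup {n : ℕ | Ideal.map (algebraMap R S) p ≤ P ^ n} = 1 := he
    omega
  · have h0 : sSup {n : ℕ | Ideal.map (algebraMap R S) p ≤ P ^ n} = 0 :=
      Nat.sSup_of_not_bddAbove hb
    have he' : sSup {n : ℕ | Ideal.map (algebraMap R S) p ≤ P ^ n} = 1 := he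
    omega

/-- `K'/K` Galois of prime degree, two distinct places over `v`: EVERY place over `v` satisfies
the hypotheses of `T6.InstSplitC`. -/
theorem split_all864 {l : ℕ} (hcyc : IsCycExt K K' l) (v : HeightOneSpectrum (𝓞 K))
    (w0 w1 : HeightOneSpectrum (𝓞 K')) (h0 : PlaceOver K K' v w0) (h1 : PlaceOver K K' v w1)
    (hne : w1 ≠ w0) (w : HeightOneSpectrum (𝓞 K')) (hw : PlaceOver K K' v w) :
    (∀ x : 𝓞 K, x ∈ v.asIdeal ↔ algebraMap (𝓞 K) (𝓞 K') x ∈ w.asIdeal) ∧
      Ideal.absNorm w.asIdeal = Ideal.absNorm v.asIdeal ∧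
      ∃ x : 𝓞 K, x ∈ v.asIdeal ∧ algebraMap (𝓞 K) (𝓞 K') x ∉ w.asIdeal ^ 2 := by
  haveI := hcyc.galois
  haveI := v.isPrime
  haveI : v.asIdeal.IsMaximal := v.isMaximal
  have h3 := Ideal.ncard_primesOver_mul_ramificationIdxIn_mul_inertiaDegIn v.asIdeal (𝓞 K')
    Gal(K'/K)
  rw [IsGalois.card_aut_eq_finrank, hcyc.degree] at h3
  have hg : (v.asIdeal.primesOver (𝓞 K')).ncard ∣ l := ⟨_, h3.symm⟩
  have hg1 : (v.asIdeal.primesOver (𝓞 K')).ncard ≠ 1 := by
    intro h1'
    obtain ⟨Q, hQ⟩ := Set.ncard_eq_one.1 h1'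
    have hmem : ∀ w'' : HeightOneSpectrum (𝓞 K'), PlaceOver K K' v w'' → w''.asIdeal = Q := by
      intro w'' hw''
      have hin : w''.asIdeal ∈ v.asIdeal.primesOver (𝓞 K') :=
        ⟨w''.isPrime, H557.placeOver_liesOver_557 hw''⟩
      rw [hQ] at hin
      exact hin
    exact hne (HeightOneSpectrum.ext ((hmem w1 h1).trans (hmem w0 h0).symm))
  have hl : (v.asIdeal.primesOver (𝓞 K')).ncard = l := by
    rcases (Nat.dvd_prime hcyc.prime).1 hg with h | h
    · exact absurd h hg1
    · exact h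
  have hef : v.asIdeal.ramificationIdxIn (𝓞 K') * v.asIdeal.inertiaDegIn (𝓞 K') = 1 := by
    rw [hl] at h3
    exact Nat.eq_of_mul_eq_mul_left hcyc.prime.pos (by rw [h3, mul_one])
  have he : v.asIdeal.ramificationIdxIn (𝓞 K') = 1 := Nat.eq_one_of_mul_eq_one_right hef
  have hf : v.asIdeal.inertiaDegIn (𝓞 K') = 1 := Nat.eq_one_of_mul_eq_one_left hef
  haveI : w.asIdeal.LiesOver v.asIdeal := H557.placeOver_liesOver_557 hw
  haveI := w.isPrime
  haveI : w.asIdeal.IsMaximal := w.isMaximal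
  refine ⟨fun x => hw x _ rfl, ?_, ?_⟩
  · have hN := Ideal.absNorm_eq_pow_inertiaDeg'_of_liesOver w.asIdeal v.asIdeal v.isPrime
      v.ne_bot
    rw [Ideal.inertiaDeg'_eq_inertiaDeg v.asIdeal w.asIdeal,
      ← Ideal.inertiaDegIn_eq_inertiaDeg v.asIdeal w.asIdeal Gal(K'/K), hf, pow_one] at hN
    exact hN
  · have he' : v.asIdeal.ramificationIdx' w.asIdeal = 1 := by
      rw [Ideal.ramificationIdx'_eq_ramificationIdx v.asIdeal w.asIdeal v.ne_bot,
        ← Ideal.ramificationIdxIn_eq_ramificationIdx v.asIdeal w.asIdeal Gal(K'/K), he]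
    by_contra hcon
    apply not_map_le_sq_of_ramIdx864 v.asIdeal w.asIdeal he'
    rw [Ideal.map_le_iff_le_comap]
    intro x hx
    rw [Ideal.mem_comap]
    by_contra hx'
    exact hcon ⟨x, hx, hx'⟩

end General

section Quad

variable {F : Type} [Field F] [NumberField F]

/-- The place `σ⁻¹(w)`. -/
def comapPl864 (s : F ≃+* F) (w : HeightOneSpectrum (𝓞 F)) : HeightOneSpectrum (𝓞 F) where
  asIdeal := Ideal.comap (NumberField.RingOfIntegers.mapRingEquiv s) w.asIdeal
  isPrime := by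
    haveI := w.isPrime
    exact Ideal.comap_isPrime _ _
  ne_bot := by
    intro h
    apply w.ne_bot
    have := Ideal.map_comap_of_surjective (NumberField.RingOfIntegers.mapRingEquiv s)
      (NumberField.RingOfIntegers.mapRingEquiv s).surjective w.asIdeal
    rw [h, Ideal.map_bot] at this
    exact this.symm

theorem placeRel_comapPl864 (s : T5.AdelicAut F) (w : HeightOneSpectrum (𝓞 F)) :
    T5.PlaceRel s (comapPl864 s.σ w) w := by
  unfold T5.PlaceRel
  exact (Ideal.map_comap_of_surjective (NumberField.RingOfIntegers.mapRingEquiv s.σ)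
    (NumberField.RingOfIntegers.mapRingEquiv s.σ).surjective w.asIdeal).symm

theorem placeOver_comapPl864 (s : F ≃+* F) {v : HeightOneSpectrum (𝓞 ℚ)}
    {w : HeightOneSpectrum (𝓞 F)} (h : PlaceOver ℚ F v w) :
    PlaceOver ℚ F v (comapPl864 s w) := by
  intro x y hxy
  have h1 : ((NumberField.RingOfIntegers.mapRingEquiv s y : 𝓞 F) : F)
      = algebraMap ℚ F (x : ℚ) := by
    have e : ((NumberField.RingOfIntegers.mapRingEquiv s y : 𝓞 F) : F) = s (y : F) := rfl
    rw [e, hxy]
    exact map_ratCast s _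
  rw [h x _ h1]
  exact Iff.rfl

/-- The enumeration `w0, σ⁻¹(w0), σ⁻²(w0), …`. -/
def enumPl864 (s : F ≃+* F) (w0 : HeightOneSpectrum (𝓞 F)) : ℕ → HeightOneSpectrum (𝓞 F)
  | 0 => w0
  | j + 1 => comapPl864 s (enumPl864 s w0 j)

/-- **LEAF UQ.2 = UP-SPLIT-Q**, proved. -/
theorem upSplitQC864 (F : Type) [Field F] [NumberField F] : UpSplitQC864 F := by
  intro hT6 D hD hcyc hl v w0 w1 h0 h1 hne
  haveI := hcyc.galois
  have hIS : T6.InstSplitC := hT6.2.2.2.2.2.2.2.1
  have hov : ∀ j : ℕ, PlaceOver ℚ F v (enumPl864 D.s.σ w0 j) := by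
    intro j
    induction j with
    | zero => exact h0
    | succ j ih => exact placeOver_comapPl864 D.s.σ ih
  have hsp := fun j : ℕ => split_all864 hcyc v w0 w1 h0 h1 hne (enumPl864 D.s.σ w0 j) (hov j)
  have hex := fun j : ℕ => hIS ℚ F v (enumPl864 D.s.σ w0 j) (hsp j).1 (hsp j).2.1 (hsp j).2.2
  choose i hi1 hi2 using hex
  refine ⟨enumPl864 D.s.σ w0, i, rfl, hov, fun j => placeRel_comapPl864 D.s _, ?_, hi1, hi2⟩
  -- `σ⁻¹(w0) ≠ w0`
  intro j hj0 hjl
  have hj : j = 1 := by omega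
  subst hj
  intro hcon
  apply hne
  -- the stabiliser
  set s : F ≃ₐ[ℚ] F := H584.algAut584 D hD with hs
  have hgen := H584.algAut_gen584 D hD hcyc
  haveI := v.isPrime
  haveI : v.asIdeal.IsMaximal := v.isMaximal
  haveI : w0.asIdeal.LiesOver v.asIdeal := H557.placeOver_liesOver_557 h0
  haveI : w1.asIdeal.LiesOver v.asIdeal := H557.placeOver_liesOver_557 h1
  haveI := w0.isPrime
  haveI := w1.isPrime
  obtain ⟨τ, hτ⟩ := Ideal.exists_smul_eq_of_isGaloisGroup v.asIdeal w0.asIdeal w1.asIdeal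
    Gal(F/ℚ)
  have hcomap : Ideal.comap (NumberField.RingOfIntegers.mapRingEquiv D.s.σ) w0.asIdeal
      = w0.asIdeal := congrArg HeightOneSpectrum.asIdeal hcon
  have hsmul : ∀ z : 𝓞 F, s • z = NumberField.RingOfIntegers.mapRingEquiv D.s.σ z := by
    intro z
    apply NumberField.RingOfIntegers.ext
    rfl
  have hstab : s ∈ MulAction.stabilizer Gal(F/ℚ) w0.asIdeal := by
    rw [MulAction.mem_stabilizer_iff]
    ext x
    rw [Ideal.mem_pointwise_smul_iff_inv_smul_mem]
    have hx : x = NumberField.RingOfIntegers.mapRingEquiv D.s.σ (s⁻¹ • x) := by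
      rw [← hsmul, smul_inv_smul]
    constructor
    · intro hmem
      have : s⁻¹ • x ∈ Ideal.comap (NumberField.RingOfIntegers.mapRingEquiv D.s.σ)
          w0.asIdeal := by rw [hcomap]; exact hmem
      rw [Ideal.mem_comap, ← hx] at this
      exact this
    · intro hmem
      have : s⁻¹ • x ∈ Ideal.comap (NumberField.RingOfIntegers.mapRingEquiv D.s.σ)
          w0.asIdeal := by
        rw [Ideal.mem_comap, ← hx]
        exact hmem
      rw [hcomap] at this
      exact this
  have hτs : τ ∈ MulAction.stabilizer Gal(F/ℚ) w0.asIdeal :=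
    (Subgroup.zpowers_le.2 hstab) (hgen τ)
  rw [MulAction.mem_stabilizer_iff] at hτs
  apply HeightOneSpectrum.ext
  rw [← hτ, hτs]

end Quad

example (F : Type) [Field F] [NumberField F] : UpSplitQC864 F := upSplitQC864 F

end Fermat.Agent.LT.T7.H864

end
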