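import Mathlib
import Fermat.Agent.LT.T7.H864.UpDatQTop
import Fermat.Agent.LT.T7.H864.UpSplitQ
import Fermat.Agent.LT.T7.H454.UpInertQ
import Fermat.Agent.LT.T7.H904.UpArchQ

/-!
# Row LT, tower T7, leaf Q2.7.13.1.a `H1U.UpDatExistsQC` (registry row 2785, owner helper864):
# CLOSED, UNCONDITIONAL

OFF-MAIN.  `upDatExistsQC864 F : H1U.UpDatExistsQC F` (VERBATIM vs `T7/H1U/UpFactQSpec.lean`
88d08be1, helper1@7e90b91d7) from the proved top `upDatExistsQC_of864` and the three closed
leaves of the cut, byte-identical copies: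

* UQ.1 `UpInertQC864 F`: helper454 `upInertQC454` (`T7/H454/UpInertQ.lean`, c27694c7);
* UQ.2 `UpSplitQC864 F`: helper864 `upSplitQC864` (`T7/H864/UpSplitQ.lean`, f56f3405);
* UQ.3 `UpArchQC864`: helper904 `upArchQC904` (`T7/H904/UpArchQ.lean`, 873ae14a).

Second sources: helper267 `upInertQC267`, helper999 `upSplitQC999`, helper709 `upArchQC709`.
-/

set_option autoImplicit false

open IsDedekindDomain NumberField

noncomputable section

namespace Fermat.Agent.LT.T7.H864

/-- **LEAF U.1 = UP-DAT-EXISTS over `ℚ`, CLOSED.** -/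
theorem upDatExistsQC864 (F : Type) [Field F] [NumberField F] : H1U.UpDatExistsQC F :=
  upDatExistsQC_of864 F (H454.UpInertQ.upInertQC454 F) (upSplitQC864 F) H904.upArchQC904

example (F : Type) [Field F] [NumberField F] : H1U.UpDatExistsQC F := upDatExistsQC864 F

end Fermat.Agent.LT.T7.H864

end
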